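import Fermat.Agent.S17.H3.Main
import Fermat.Agent.S17.G.Main
import Fermat.Agent.S17.F.Main
import Fermat.Prelude.Def_FLTPrelim_Ramification

/-! # S17 / T1 : the four geometric inputs of the abstract weak Mordell-Weil lemma `weakMW` (H/WeakMW.lean)

Pure glue: Part F (`F.torsion_finite`), Part G (`G.finite_two_torsion`, `G.exists_two_nsmul_eq`), Part H3 (`H3.hsmooth`, `H3.exists_hunr`). -/

set_option autoImplicit false

open AlgebraicCurve ModularCurve IntermediateField

namespace Fermat.Agent.S17

open FF

variable (N : ℕ) [NeZero N]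

/-- Part F (+ G1 injectivity of base change).  -/
theorem two_torsion_finite : {y : JZero N | 2 • y = 0}.Finite :=
  G.finite_two_torsion (F.torsion_finite N 2 two_pos)

/-- Part G. -/
theorem two_divisible (x : JZero N) : ∃ y : JZero N, 2 • y = x :=
  G.exists_two_nsmul_eq (F.torsion_finite N 2 two_pos) x

/-- every class is fixed by an open subgroup -/
theorem class_smooth (y : JZero N) : ∃ L : IntermediateField ℚ Kb, FiniteDimensional ℚ L ∧
    ∀ σ ∈ L.fixingSubgroup, σ • y = y :=
  H3.hsmooth y

/-- Part H3. -/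
theorem class_unramified : ∃ S : Finset ℕ, ∀ p : ℕ, p.Prime → p ∉ S → ∀ A : ValuationSubring Kb,
    A.LiesOverPrime p → ∀ σ ∈ A.inertiaSubgroupIn ℚ, ∀ y : JZero N, 2 • (σ • y - y) = 0 → σ • y = y :=
  H3.exists_hunr (two_torsion_finite N)

end Fermat.Agent.S17
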